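import Fermat.Agent.S55.Local.H484.Transport

/-!
# S55, layer L : transport for subquotients of the Galois group (helper484)

`L/K` finite Galois, `H ≤ Gal(L/K)`, `K' ⊴ H`.  With `E₁ = L^H` and `E₂ = L^{K'}` (as an
intermediate field of `L/E₁`) we construct
`quotIso H K' n : Hⁿ(H ⧸ K', (Lˣ)^{K'}) ≅ Hⁿ(Gal(E₂/E₁), E₂ˣ)`.
-/

set_option autoImplicit false
set_option linter.unusedSectionVars false

namespace Fermat.Agent.S55.Local.H484

open groupCohomology CategoryTheory IntermediateField

section Quot

variable {K L : Type} [Field K] [Field L] [Algebra K L] [FiniteDimensional K L] [IsGalois K L]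
variable (H : Subgroup (L ≃ₐ[K] L)) (K' : Subgroup H) [K'.Normal]

/-- The subgroup of `Gal(L/L^H)` corresponding to `K' ≤ H`. -/
def subN : Subgroup (L ≃ₐ[fixedField H] L) :=
  K'.map (subgroupEquivAlgEquiv H).toMonoidHom

instance subN_normal : (subN H K').Normal :=
  Subgroup.Normal.map inferInstance _ (subgroupEquivAlgEquiv H).surjective

/-- The fixed field of `K'`, as an intermediate field of `L / L^H`. -/
abbrev midField : IntermediateField (fixedField H) L := fixedField (subN H K')

/-- `H ⧸ K' ≃* Gal(E₂/E₁)`. -/
noncomputable def quotEquiv : H ⧸ K' ≃* (midField H K' ≃ₐ[fixedField H] midField H K') :=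
  (QuotientGroup.congr K' (subN H K') (subgroupEquivAlgEquiv H) rfl).trans
    (IsGalois.normalAutEquivQuotient (subN H K'))

omit [IsGalois K L] in
lemma subgroupEquivAlgEquiv_apply (h : H) (x : L) :
    (subgroupEquivAlgEquiv H h) x = (h : L ≃ₐ[K] L) x := rfl

lemma algebraMap_quotEquiv_mk (h : H) (x : midField H K') :
    algebraMap (midField H K') L (quotEquiv H K' (QuotientGroup.mk h) x) =
      (h : L ≃ₐ[K] L) (algebraMap (midField H K') L x) := by
  have : quotEquiv H K' (QuotientGroup.mk h) =
      (AlgEquiv.restrictNormalHom (midField H K')) (subgroupEquivAlgEquiv H h) := rfl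
  rw [this]
  exact AlgEquiv.restrictNormalHom_apply (midField H K') (subgroupEquivAlgEquiv H h) x

end Quot

end Fermat.Agent.S55.Local.H484

namespace Fermat.Agent.S55.Local.H484

open groupCohomology CategoryTheory IntermediateField

section Quot2

variable {K L : Type} [Field K] [Field L] [Algebra K L] [FiniteDimensional K L] [IsGalois K L]
variable (H : Subgroup (L ≃ₐ[K] L)) (K' : Subgroup H) [K'.Normal]

/-- The representation of `H ⧸ K'` on `(Lˣ)^{K'}`. -/
noncomputable abbrev quotRep : Rep.{0} ℤ (H ⧸ K') :=
  (T.resSub (Rep.ofAlgebraAutOnUnits K L) H).quotientToInvariants K'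

/-- The underlying unit of `L` of an element of `(Lˣ)^{K'}`. -/
def quotVal (x : (quotRep H K').V) : Lˣ :=
  Additive.toMul (Subtype.val (p := fun a : Additive Lˣ => a ∈
    Representation.invariants
      (((T.resSub (Rep.ofAlgebraAutOnUnits K L) H).ρ).comp K'.subtype)) x)

lemma quotVal_injective : Function.Injective (quotVal H K') := by
  intro x y h
  exact Subtype.ext h

lemma quotVal_ρ_mk (h : H) (x : (quotRep H K').V) :
    quotVal H K' ((quotRep H K').ρ (QuotientGroup.mk h) x) =
      (h : L ≃ₐ[K] L) • quotVal H K' x := rfl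

lemma quotVal_add (x y : (quotRep H K').V) :
    quotVal H K' (x + y) = quotVal H K' x * quotVal H K' y := rfl

lemma quotVal_invariant (x : (quotRep H K').V) (k : H) (hk : k ∈ K') :
    (k : L ≃ₐ[K] L) • quotVal H K' x = quotVal H K' x := by
  have := x.2 ⟨k, hk⟩
  exact congrArg (fun a : Additive Lˣ => (Additive.toMul a : Lˣ)) this

lemma quotVal_mem_midField (x : (quotRep H K').V) :
    ((quotVal H K' x : Lˣ) : L) ∈ midField H K' := by
  rintro ⟨n, hn⟩
  obtain ⟨k, hk, rfl⟩ := hn
  have := quotVal_invariant H K' x k hk
  exact congrArg (fun a : Lˣ => (a : L)) this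

/-- `E₂ˣ → (Lˣ)^{K'}`, as a `ℤ`-linear map. -/
noncomputable def inclLin : Additive (midField H K')ˣ →ₗ[ℤ] (quotRep H K').V :=
  LinearMap.codRestrict _
    ((MonoidHom.toAdditive
      (Units.map (algebraMap (midField H K') L : midField H K' →* L))).toIntLinearMap)
    (fun u => by
      rintro ⟨k, hk⟩
      have hv : ∀ n : subN H K', n • ((Additive.toMul u : (midField H K')ˣ) : midField H K').1 =
          ((Additive.toMul u : (midField H K')ˣ) : midField H K').1 :=
        ((Additive.toMul u : (midField H K')ˣ) : midField H K').2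
      have h1 := hv ⟨subgroupEquivAlgEquiv H k, ⟨k, hk, rfl⟩⟩
      refine congrArg Additive.ofMul (Units.ext ?_)
      exact h1)

lemma quotVal_inclLin (u : Additive (midField H K')ˣ) :
    quotVal H K' (inclLin H K' u) =
      Units.map (algebraMap (midField H K') L : midField H K' →* L) (Additive.toMul u) := rfl

lemma inclLin_bijective : Function.Bijective (inclLin H K') := by
  constructor
  · intro u v huv
    have h := congrArg (quotVal H K') huv
    rw [quotVal_inclLin, quotVal_inclLin] at h
    have h2 : Function.Injective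
        (Units.map (algebraMap (midField H K') L : midField H K' →* L)) :=
      Units.map_injective (algebraMap (midField H K') L).injective
    exact Additive.toMul.injective (h2 h)
  · intro x
    have hmem := quotVal_mem_midField H K' x
    have hne : (⟨((quotVal H K' x : Lˣ) : L), hmem⟩ : midField H K') ≠ 0 := by
      intro h0
      have := congrArg (fun a : midField H K' => (a : L)) h0
      exact (quotVal H K' x).ne_zero this
    refine ⟨Additive.ofMul (Units.mk0 _ hne), ?_⟩
    apply quotVal_injective H K'
    rw [quotVal_inclLin]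
    exact Units.ext rfl

/-- `E₂ˣ ≃ (Lˣ)^{K'}`. -/
noncomputable def inclEquiv : Additive (midField H K')ˣ ≃ₗ[ℤ] (quotRep H K').V :=
  LinearEquiv.ofBijective (inclLin H K') (inclLin_bijective H K')

lemma inclLin_equivariant (h : H) (u : Additive (midField H K')ˣ) :
    inclLin H K' ((Rep.ofAlgebraAutOnUnits (fixedField H) (midField H K')).ρ
        (quotEquiv H K' (QuotientGroup.mk h)) u) =
      (quotRep H K').ρ (QuotientGroup.mk h) (inclLin H K' u) := by
  apply quotVal_injective H K'
  refine Units.ext ?_
  exact algebraMap_quotEquiv_mk H K' h ((Additive.toMul u : (midField H K')ˣ) : midField H K')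

/-- `Hⁿ(Gal(E₂/E₁), E₂ˣ) ≅ Hⁿ(H ⧸ K', (Lˣ)^{K'})`. -/
noncomputable def quotIso (n : ℕ) :
    groupCohomology (Rep.ofAlgebraAutOnUnits (fixedField H) (midField H K')) n ≅
      groupCohomology (quotRep H K') n :=
  groupCohomology.mapIso (A := quotRep H K')
    (B := Rep.ofAlgebraAutOnUnits (fixedField H) (midField H K'))
    (quotEquiv H K').symm (inclEquiv H K') (fun σ => by
      obtain ⟨g, rfl⟩ := (quotEquiv H K').surjective σ
      obtain ⟨h, rfl⟩ := QuotientGroup.mk_surjective g
      rw [MulEquiv.symm_apply_apply]
      refine LinearMap.ext fun u => ?_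
      exact inclLin_equivariant H K' h u) n

end Quot2

end Fermat.Agent.S55.Local.H484
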