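import Fermat.Agent.S55.Local.H484.Quot

/-!
# S55, layer L : GLUE T4 — `|H²(Gal(L/K), Lˣ)|` divides `[L : K]` (helper484)

`h2CardDvd_of : CyclicH2CardStatement → T.UglySpec → H2CardDvdStatement`.

Proof: the "ugly lemma" (layer T) reduces the claim to Hilbert 90 for all subgroups
(`isZero_H1_resSub`) and to the cyclic layers `K' ⊴ H ≤ Gal(L/K)` of prime index, which are
`H²(Gal(E₂/E₁), E₂ˣ)` for the subextension `E₂ = L^{K'}` over `E₁ = L^H` (`quotIso`), where
`CyclicH2CardStatement` applies.
-/

set_option autoImplicit false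
set_option linter.unusedSectionVars false

namespace Fermat.Agent.S55.Local.H484

open groupCohomology CategoryTheory IntermediateField

section

variable (F : Type) [Field F]
    (K : Type) [Field K] [Algebra F K] [FiniteDimensional F K]
    (L : Type) [Field L] [Algebra F L] [Algebra K L] [IsScalarTower F K L]
    [FiniteDimensional K L]

theorem isScalarTower_fixedField (H : Subgroup (L ≃ₐ[K] L)) :
    IsScalarTower F (fixedField H) L :=
  IsScalarTower.of_algebraMap_eq (fun _ => rfl)

theorem finiteDimensional_fixedField (H : Subgroup (L ≃ₐ[K] L)) :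
    FiniteDimensional F (fixedField H) := by
  have : FiniteDimensional F L := FiniteDimensional.trans F K L
  have := isScalarTower_fixedField F K L H
  exact FiniteDimensional.of_injective (IsScalarTower.toAlgHom F (fixedField H) L).toLinearMap
    (algebraMap (fixedField H) L).injective

end

/-- Cardinality transport along an isomorphism in `ModuleCat`. -/
theorem card_eq_of_iso {k : Type} [CommRing k] {M N : ModuleCat.{0} k} (e : M ≅ N) :
    Nat.card M = Nat.card N :=
  Nat.card_congr e.toLinearEquiv.toEquiv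

theorem finite_of_iso {k : Type} [CommRing k] {M N : ModuleCat.{0} k} (e : M ≅ N)
    (h : Finite M) : Finite N :=
  Finite.of_equiv M e.toLinearEquiv.toEquiv

/-- The cyclic layers. -/
theorem cardDvd_quotRep (hcyc : CyclicH2CardStatement)
    (A F : Type) [CommRing A] [IsDomain A] [IsDiscreteValuationRing A]
    [IsAdicComplete (IsLocalRing.maximalIdeal A) A] [Finite (IsLocalRing.ResidueField A)]
    [Field F] [CharZero F] [Algebra A F] [IsFractionRing A F]
    (K : Type) [Field K] [Algebra F K] [FiniteDimensional F K]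
    (L : Type) [Field L] [Algebra F L] [Algebra K L] [IsScalarTower F K L]
    [FiniteDimensional K L] [IsGalois K L]
    (H : Subgroup (L ≃ₐ[K] L)) (K' : Subgroup H) [K'.Normal]
    (hp : (Nat.card (H ⧸ K')).Prime) :
    T.CardDvd (groupCohomology (quotRep H K') 2) (Nat.card (H ⧸ K')) := by
  have := isScalarTower_fixedField F K L H
  have := finiteDimensional_fixedField F K L H
  have : Fact (Nat.card (H ⧸ K')).Prime := ⟨hp⟩
  have hcard : Nat.card (midField H K' ≃ₐ[fixedField H] midField H K') = Nat.card (H ⧸ K') :=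
    (Nat.card_congr (quotEquiv H K').toEquiv).symm
  have hcycl : IsCyclic (midField H K' ≃ₐ[fixedField H] midField H K') := by
    have : Fact (Nat.card (midField H K' ≃ₐ[fixedField H] midField H K')).Prime :=
      ⟨hcard ▸ hp⟩
    exact isCyclic_of_prime_card rfl
  have h1 := hcyc A F (fixedField H) (midField H K') hcycl
  have h2 : Nat.card (H2 (Rep.ofAlgebraAutOnUnits (fixedField H) (midField H K'))) =
      Nat.card (H ⧸ K') := by
    rw [h1, ← IsGalois.card_aut_eq_finrank, hcard]
  have h3 : Nat.card (groupCohomology (quotRep H K') 2) = Nat.card (H ⧸ K') := by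
    rw [← card_eq_of_iso (quotIso H K' 2)]
    exact h2
  refine ⟨?_, by rw [h3]⟩
  exact Nat.finite_of_card_ne_zero (h3 ▸ hp.ne_zero)

/-- **GLUE T4.** -/
theorem h2CardDvd_of (hcyc : CyclicH2CardStatement) (hugly : T.UglySpec) :
    H2CardDvdStatement := by
  intro A F _ _ _ _ _ _ _ _ _ K _ _ _ L _ _ _ _ _ _
  have key := hugly ℤ (L ≃ₐ[K] L) (Rep.ofAlgebraAutOnUnits K L)
    (fun H => isZero_H1_resSub H)
    (fun H K' _ hp => cardDvd_quotRep hcyc A F K L H K' hp) ⊤
  have hc : Nat.card (H2 (Rep.ofAlgebraAutOnUnits K L)) =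
      Nat.card (groupCohomology (T.resSub (Rep.ofAlgebraAutOnUnits K L) ⊤) 2) :=
    (card_eq_of_iso (topIso (Rep.ofAlgebraAutOnUnits K L) 2)).symm
  rw [hc, ← IsGalois.card_aut_eq_finrank K L]
  have htop : Nat.card (⊤ : Subgroup (L ≃ₐ[K] L)) = Nat.card (L ≃ₐ[K] L) :=
    Nat.card_congr Subgroup.topEquiv.toEquiv
  rw [← htop]
  exact key.2

end Fermat.Agent.S55.Local.H484
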