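import Fermat.Agent.S55.Local.Spec
import Fermat.Agent.S55.T.Spec

/-!
# S55, layer L : transport between subgroups of `Gal(L/K)` and Galois groups of subextensions
(helper484)

For a finite Galois extension `L/K`, `G = Gal(L/K)`, `A = Rep.ofAlgebraAutOnUnits K L`:

* `resSubIso H n` : `Hⁿ(H, Lˣ) ≅ Hⁿ(Gal(L/L^H), Lˣ)` for every subgroup `H ≤ G`;
* `isZero_H1_resSub` : Hilbert 90 for every subgroup;
* `topIso n` : `Hⁿ(⊤, A) ≅ Hⁿ(G, A)`.
-/

set_option autoImplicit false

namespace Fermat.Agent.S55.Local.H484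

open groupCohomology CategoryTheory IntermediateField

section Sub

variable {K L : Type} [Field K] [Field L] [Algebra K L] [FiniteDimensional K L]

/-- `Hⁿ(H, Lˣ) ≅ Hⁿ(Gal(L/L^H), Lˣ)` for a subgroup `H ≤ Gal(L/K)`. -/
noncomputable def resSubIso (H : Subgroup (L ≃ₐ[K] L)) (n : ℕ) :
    groupCohomology (T.resSub (Rep.ofAlgebraAutOnUnits K L) H) n ≅
      groupCohomology (Rep.ofAlgebraAutOnUnits (fixedField H) L) n :=
  groupCohomology.mapIso (A := Rep.ofAlgebraAutOnUnits (fixedField H) L)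
    (B := T.resSub (Rep.ofAlgebraAutOnUnits K L) H)
    (subgroupEquivAlgEquiv H) (LinearEquiv.refl ℤ _) (fun g => by
      ext x
      rfl) n

/-- Hilbert 90 for every subgroup of the Galois group. -/
theorem isZero_H1_resSub (H : Subgroup (L ≃ₐ[K] L)) :
    Limits.IsZero (groupCohomology (T.resSub (Rep.ofAlgebraAutOnUnits K L) H) 1) := by
  refine Limits.IsZero.of_iso ?_ (resSubIso H 1)
  have : Subsingleton (groupCohomology (Rep.ofAlgebraAutOnUnits (fixedField H) L) 1) :=
    (inferInstance : Subsingleton (H1 (Rep.ofAlgebraAutOnUnits (fixedField H) L)))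
  exact ModuleCat.isZero_of_subsingleton _

/-- `Hⁿ(⊤, A) ≅ Hⁿ(G, A)`. -/
noncomputable def topIso {k G : Type} [CommRing k] [Group G] (A : Rep.{0} k G) (n : ℕ) :
    groupCohomology (T.resSub A (⊤ : Subgroup G)) n ≅ groupCohomology A n :=
  groupCohomology.mapIso (A := A) (B := T.resSub A (⊤ : Subgroup G))
    Subgroup.topEquiv (LinearEquiv.refl k _) (fun g => by
      ext x
      rfl) n

end Sub

end Fermat.Agent.S55.Local.H484
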